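import Fermat.Agent.S27x.Contract
import Fermat.Agent.S27x.Cx.Finite

/-!
# P-S27: the contract of the base case `(T0)` (helper11)

`Contract.T0`: the torsion count `#Pic⁰(F)[n] = n^(2g)` for every curve `F / K` over an algebraically
closed field `K` which is algebraic over `ℚ`.  It is obtained from three blocks, each an exact
`Prop`:

* `G2bOut` (GLUE + BELYI + G2b): for every embedding `ι : K →+* ℂ`, the function field `F` has an
  analytic realisation `D : EmbData K F ι x Γ` with `F / K(x)` finite, `Γ ≤ Γ₀(4)` of finite index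
  and all `SL(2,ℤ)`-translates cusp-meromorphic;
* `AOut` (block A, analytic core): the count for every curve over `ℂ` with such a realisation;
* `BCFinOut` (block C, descent `ℂ → K`): invariance of the genus and of `#Pic⁰[n]` under the
  extension `K → L` of algebraically closed constant fields, `F₁ = L · F₀`, when the torsion of
  `F₁` is finite (four independent universes).

The complexification (`S27x/Cx`) turns the output of `G2bOut` into the input of `AOut` and of
`BCFinOut`: `t0_of_chain : G2bOut → AOut → BCFinOut → Contract.T0`.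
-/

set_option autoImplicit false
set_option linter.style.haveILetI false

open scoped MatrixGroups

noncomputable section

namespace Fermat.Agent.S27x.Base

open AlgebraicCurve IntermediateField
open Fermat.Agent.S24 Fermat.Agent.S24.CuspOrd
open Fermat.Agent.Gateway.Dict.ConjAbs
open Fermat.Agent.S27x.Contract Fermat.Agent.S27x.Cx

universe u u' v v'

/-- **Output of GLUE + BELYI + G2b**: every curve over an algebraically closed field `K` algebraic
over `ℚ` has, for every embedding `ι : K →+* ℂ`, an analytic realisation with stabiliser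
`Γ ≤ Γ₀(4)` of finite index, finite over `K(x)`, all of whose translates are cusp-meromorphic. -/
def G2bOut : Prop :=
  ∀ (K : Type u) [Field K] [IsAlgClosed K] [CharZero K] [Algebra.IsAlgebraic ℚ K] (ι : K →+* ℂ)
    (F : Type v) [Field F] [Algebra K F] [IsCurveOver K F] [Algebra.EssFiniteType K F],
    ∃ (x : F) (Γ : Subgroup SL(2, ℤ)) (n : ℕ) (D : EmbData K F ι x Γ),
      FiniteDimensional K⟮x⟯ F ∧ Γ.FiniteIndex ∧ 0 < n ∧
        (∀ (f : F) (g : SL(2, ℤ)), IsCuspMer n (g • D.emb f)) ∧
        Γ ≤ CongruenceSubgroup.Gamma0 4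

/-- **Output of block A** (the analytic core over `ℂ`), in the setting of `S27-IFACE-A`. -/
def AOut : Prop :=
  ∀ (F : Type) [Field F] [Algebra ℂ F] [IsCurveOver ℂ F] [Algebra.EssFiniteType ℂ F] (x : F)
    (Γ : Subgroup SL(2, ℤ)) [Γ.FiniteIndex] (D : EmbData ℂ F (RingHom.id ℂ) x Γ) (n : ℕ),
    0 < n → (∀ (f : F) (g : SL(2, ℤ)), IsCuspMer n (g • D.emb f)) →
      Γ ≤ CongruenceSubgroup.Gamma0 4 → CountOK ℂ F

/-- **Output of block C for the base case**: extension `K → L` of the algebraically closed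
constant field, `F₁ = L · F₀`, when the torsion of `Pic⁰(F₁)` is finite.  Four independent
universes (`L = ℂ`, `F₁ = FC D` live in `Type`). -/
def BCFinOut : Prop :=
  ∀ (K : Type u) (L : Type u') (F₀ : Type v) (F₁ : Type v') [Field K] [Field L] [Field F₀]
    [Field F₁] [Algebra K L] [Algebra K F₀] [Algebra L F₁] [Algebra F₀ F₁] [Algebra K F₁]
    [IsScalarTower K F₀ F₁] [IsScalarTower K L F₁]
    [IsAlgClosed K] [IsAlgClosed L] [CharZero K]
    [IsCurveOver K F₀] [Algebra.EssFiniteType K F₀]
    [IsCurveOver L F₁] [Algebra.EssFiniteType L F₁],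
    IntermediateField.adjoin L (Set.range (algebraMap F₀ F₁)) = ⊤ →
      (∀ n : ℕ, 0 < n → Finite (Pic0.torsion L F₁ n)) →
      genusFF K F₀ = genusFF L F₁ ∧
        ∀ n : ℕ, 0 < n → Nat.card (Pic0.torsion K F₀ n) = Nat.card (Pic0.torsion L F₁ n)

/-- The block `Contract.BlockBC` restricted to finite torsion, in one pair of universes. -/
theorem bcFinOut_of_blockBC (h : BlockBC.{u, v}) : BCFinOut.{u, u, v, v} := by
  intro K L F₀ F₁ _ _ _ _ _ _ _ _ _ _ _ _ _ _ _ _ _ _ hgen _
  exact h K L F₀ F₁ hgen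

/-- An algebraically closed field which is algebraic over `ℚ` embeds into `ℂ`. -/
theorem exists_ringHom_complex (K : Type u) [Field K] [CharZero K] [Algebra.IsAlgebraic ℚ K] :
    Nonempty (K →+* ℂ) :=
  ⟨(IsAlgClosed.lift (R := ℚ) (S := K) (M := ℂ) : K →ₐ[ℚ] ℂ).toRingHom⟩

/-- The count for a realised curve, from block A and the descent `ℂ → K`. -/
theorem countOK_of_embData (hA : AOut) (hBC : BCFinOut.{u, 0, v, 0})
    {K : Type u} [Field K] [IsAlgClosed K] [CharZero K] {ι : K →+* ℂ}
    {F : Type v} [Field F] [Algebra K F] [IsCurveOver K F] [Algebra.EssFiniteType K F]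
    {x : F} {Γ : Subgroup SL(2, ℤ)} (D : EmbData K F ι x Γ) [FiniteDimensional K⟮x⟯ F]
    [Γ.FiniteIndex] {n : ℕ} (hn : 0 < n)
    (hcusp : ∀ (f : F) (g : SL(2, ℤ)), IsCuspMer n (g • D.emb f))
    (hΓ4 : Γ ≤ CongruenceSubgroup.Gamma0 4) : CountOK K F := by
  haveI := isCurveOver_FC D
  haveI := essFiniteType_FC D
  have hC : CountOK ℂ (FC D) :=
    hA (FC D) (xC D) Γ (embDataC D) n hn (isCuspMer_smul_embDataC D hcusp) hΓ4
  letI := algebraι ι
  letI := algebraF D
  letI := algebraK D
  haveI := isScalarTower_K_F_FC D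
  haveI := isScalarTower_K_C_FC D
  have hfin : ∀ m : ℕ, 0 < m → Finite (Pic0.torsion ℂ (FC D) m) := by
    intro m hm
    apply Nat.finite_of_card_ne_zero
    rw [hC m hm]
    exact (pow_pos hm _).ne'
  obtain ⟨hg, hcard⟩ := hBC K ℂ F (FC D) (adjoin_range_algebraMap D) hfin
  intro m hm
  rw [hcard m hm, hC m hm, hg]

/-- **The base case `(T0)` from the three blocks.** -/
theorem t0_of_chain (hG : G2bOut.{u, v}) (hA : AOut) (hBC : BCFinOut.{u, 0, v, 0}) :
    T0.{u, v} := by
  intro K _ _ _ _ F _ _ _ _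
  obtain ⟨ι⟩ := exists_ringHom_complex K
  obtain ⟨x, Γ, n, D, hfd, hΓ, hn, hcusp, hΓ4⟩ := hG K ι F
  haveI := hfd
  haveI := hΓ
  exact countOK_of_embData hA hBC D hn hcusp hΓ4

end Fermat.Agent.S27x.Base
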