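import Fermat.Agent.S27x.Belyi.FunctionField

/-!
# P-S27, base case `(T0)`: the output of GLUE + BELYI (helper66)

`BelyiOut` is the exact `Prop` (in the universes and with the instance binders of
`Base.G2bOut`, file `S27x/Base/Contract.lean`) delivered by `Belyi.exists_belyi`:
every curve `F / K` over an algebraically closed field `K` algebraic over `ℚ` contains a
transcendental `β` with `F / K(β)` finite and unramified outside `β ∈ {0, 16, ∞}`.
-/

set_option autoImplicit false

open AlgebraicCurve IntermediateField

namespace Fermat.Agent.S27x.Base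

universe u v

/-- **Output of GLUE + BELYI**, in the binder shape of `Base.G2bOut`. -/
def BelyiOut : Prop :=
  ∀ (K : Type u) [Field K] [IsAlgClosed K] [CharZero K] [Algebra.IsAlgebraic ℚ K]
    (F : Type v) [Field F] [Algebra K F] [IsCurveOver K F] [Algebra.EssFiniteType K F],
    ∃ β : F, Transcendental K β ∧ FiniteDimensional K⟮β⟯ F ∧ G2b.IsBelyiUnram K β

/-- `BelyiOut` holds. -/
theorem belyiOut : BelyiOut.{u, v} :=
  fun K _ _ _ _ F _ _ _ _ => Belyi.exists_belyi (K := K) (F := F)

end Fermat.Agent.S27x.Base
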