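import Fermat.Agent.S27x.Base.Contract
import Fermat.Agent.S27x.A.CountOK

/-!
# P-S27, (T0) chain: block A discharges `Base.AOut` (helper24)

`aOut : Base.AOut` is `A.countOK` (helper67, `S27x/A/CountOK.lean`) in the literal shape frozen in
`S27x/Base/Contract.lean` (helper11); the hypotheses `EssFiniteType` and `Γ ≤ Γ₀(4)` are not used.
-/

set_option autoImplicit false

namespace Fermat.Agent.S27x.Base

/-- Block A proves the `AOut` slot of `t0_of_chain`. -/
theorem aOut : AOut := by
  intro F _ _ _ _ x Γ _ D n hn hcusp _
  exact Fermat.Agent.S27x.A.countOK D hn hcusp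

end Fermat.Agent.S27x.Base
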