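import Fermat.Agent.S27x.Base.AOut
import Fermat.Agent.S27x.BC.BCFinOutProof
import Fermat.Agent.S27x.BC.G3Core

/-!
# P-S27: the base case `(T0)` from the G2b output alone (helper11)

Blocks A (`Base.aOut`, helper24/helper67) and C (`BC.bcFinOut`, helper77/helper79/helper93) are
unconditional, so `Contract.T0` follows from `Base.G2bOut` (GLUE + BELYI + G2b) alone.
-/

set_option autoImplicit false

namespace Fermat.Agent.S27x.Base

universe u v

/-- **`(T0)` from the analytic realisation of curves over `ℚ̄`.** -/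
theorem t0_of_g2bOut (hG : G2bOut.{u, v}) : Fermat.Agent.S27x.Contract.T0.{u, v} :=
  t0_of_chain hG aOut Fermat.Agent.S27x.BC.bcFinOut.{u, 0, v, 0}

open AlgebraicCurve in
/-- **S27 from `G2bOut` and `(T1)`** (exact shape of the frozen statement): blocks A and C are
unconditional. -/
theorem s27_of_g2bOut_of_t1 (hG : G2bOut.{u, v}) (h1 : Fermat.Agent.S27x.Contract.T1.{u, v})
    (K : Type u) (F : Type v) [Field K] [Field F] [Algebra K F] [IsAlgClosed K] [CharZero K]
    [IsCurveOver K F] [Algebra.EssFiniteType K F]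
    (ℓ : ℕ) [Fact ℓ.Prime] (k : ℕ) :
    Nat.card (Pic0.torsion K F (ℓ ^ k)) = ℓ ^ (2 * genusFF K F * k) :=
  Fermat.Agent.S27x.Contract.s27_of_T (t0_of_g2bOut hG) h1 Fermat.Agent.S27x.BC.t2 K F ℓ k

end Fermat.Agent.S27x.Base
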